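/-
S25 / node P6-c (task 865), owner helper150.
Degree zero spreads from the generic fibre over a domain.
-/
import Fermat.Agent.S25.Alg.ChiLocConstFinal
import Fermat.Agent.S25.Triple.BCLemmas
import Fermat.Agent.S25.Triple.QC

set_option autoImplicit false

universe u

open scoped TensorProduct

namespace Fermat.Agent.S25.ValExists

open Triple

variable {k : Type u} [Field k] {𝔠 : CurveCharts k}

/-- a locally constant function on the spectrum of a domain is constant. -/
theorem locConst_const {V : Type u} [CommRing V] [IsDomain V] {f : PrimeSpectrum V → ℤ}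
    (hf : IsLocallyConstant f) (x y : PrimeSpectrum V) : f x = f y :=
  hf.apply_eq_of_preconnectedSpace x y

theorem deg0_of_generic (V K : Type u) [CommRing V] [IsDomain V] [Field K]
    [Algebra k V] [Algebra k K] [Algebra V K] [IsScalarTower k V K]
    (T : Triple 𝔠 V) (hT : T.IsInvertible) (TK : Triple 𝔠 K) (hTK : TK.Deg0)
    (h : IsBC (IsScalarTower.toAlgHom k V K) T TK) : T.Deg0 := by
  obtain ⟨f, hf, hfT⟩ := Triple.chi_locConst V T hT
  obtain ⟨f₀, hf₀, hfU⟩ := Triple.chi_locConst V (unit 𝔠 V) unit_isInvertible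
  intro L _ _ φ TL hTL
  have h1 := hfT L φ TL hTL
  have h2 := hfT K (IsScalarTower.toAlgHom k V K) TK h
  have h3 := hfU L φ (unit 𝔠 L) ⟨BaseChange.unit φ⟩
  have h4 := hfU K (IsScalarTower.toAlgHom k V K) (unit 𝔠 K)
    ⟨BaseChange.unit (IsScalarTower.toAlgHom k V K)⟩
  have h5 := hTK K (AlgHom.id k K) TK ⟨BaseChange.id TK⟩
  rw [h1, h3, locConst_const hf _ (PrimeSpectrum.comap (IsScalarTower.toAlgHom k V K).toRingHom ⊥),
    locConst_const hf₀ _ (PrimeSpectrum.comap (IsScalarTower.toAlgHom k V K).toRingHom ⊥),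
    ← h2, ← h4, h5]

end Fermat.Agent.S25.ValExists
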