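/-
S25 / node P6-d: the valuative extension property descends from the algebraic closure.
Owner: helper57.
-/
import Fermat.Agent.S25.Charts.Defs
import Fermat.Agent.S25.Triple.BCLemmas
import Fermat.Agent.S25.Triple.IsoLemmas

set_option autoImplicit false

universe u

open scoped TensorProduct

namespace Fermat.Agent.S25.ValExists

open Triple

variable {k : Type u} [Field k] {𝔠 : CurveCharts k}

/-- the extension property over a pair (ring, field) -/
def ExtProp (𝔠 : CurveCharts k) (V K : Type u) [CommRing V] [Field K]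
    [Algebra k V] [Algebra k K] [Algebra V K] [IsScalarTower k V K] : Prop :=
  ∀ TK : Triple 𝔠 K, TK.IsPic0 →
    ∃ T : Triple 𝔠 V, T.IsPic0 ∧ IsBC (IsScalarTower.toAlgHom k V K) T TK

namespace Descent

/-- An algebra homomorphism with values in the image of an injective algebra map factors. -/
theorem exists_factor {B V K : Type u} [CommRing B] [CommRing V] [CommRing K] [Algebra k B]
    [Algebra k V] [Algebra k K] [Algebra V K] [IsScalarTower k V K]
    (hinj : Function.Injective (algebraMap V K)) (f : B →ₐ[k] K)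
    (h : ∀ b, f b ∈ Set.range (algebraMap V K)) :
    ∃ f' : B →ₐ[k] V, (IsScalarTower.toAlgHom k V K).comp f' = f := by
  choose g hg using h
  refine ⟨{ toFun := g, map_one' := ?_, map_mul' := ?_, map_zero' := ?_, map_add' := ?_,
            commutes' := ?_ }, ?_⟩
  · apply hinj; rw [hg, map_one, map_one]
  · intro a b; apply hinj; rw [hg, map_mul, map_mul, hg, hg]
  · apply hinj; rw [hg, map_zero, map_zero]
  · intro a b; apply hinj; rw [hg, map_add, map_add, hg, hg]
  · intro c; apply hinj; rw [hg, AlgHom.commutes, ← IsScalarTower.algebraMap_apply]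
  · ext b
    exact hg b

/-- Over a local ring every object of `Pic⁰` lies in one chart. -/
theorem exists_chart_of_isLocalRing (ch : AlgCharts 𝔠) (A : Type u) [CommRing A] [Algebra k A]
    [IsLocalRing A] (T : Triple 𝔠 A) (hT : T.IsPic0) :
    ∃ (i : ch.ι) (φ : ch.R i →ₐ[k] A), IsBC φ (ch.U i) T := by
  let ψ : A →ₐ[k] IsLocalRing.ResidueField A := IsScalarTower.toAlgHom k A _
  obtain ⟨i, φ₀, hφ₀⟩ := ch.cover (IsLocalRing.ResidueField A) (T.bc ψ) ((T.bcData ψ).isPic0 hT)
  obtain ⟨𝒱, h𝒱, hiff⟩ := ch.isOpen i A T hT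
  have h1 := (hiff (IsLocalRing.ResidueField A) ψ (T.bc ψ) ⟨T.bcData ψ⟩).mpr ⟨φ₀, hφ₀⟩
  have h2 : IsLocalRing.closedPoint A ∈ 𝒱 := by
    have := h1 ⊥
    rwa [show PrimeSpectrum.comap ψ.toRingHom ⊥ = IsLocalRing.closedPoint A from
      IsLocalRing.PrimeSpectrum.comap_residue A ⊥] at this
  have h3 : 𝒱 = Set.univ := by
    have := (IsLocalRing.closed_point_mem_iff (U := ⟨𝒱, h𝒱⟩)).mp h2
    exact congrArg (fun U : TopologicalSpace.Opens (PrimeSpectrum A) => U.carrier) this
  obtain ⟨φ, hφ⟩ := (hiff A (AlgHom.id k A) T ⟨BaseChange.id T⟩).mp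
    (fun p => by rw [h3]; exact Set.mem_univ _)
  exact ⟨i, φ, hφ⟩

/-- Membership in a chart descends along field extensions. -/
theorem exists_chart_of_field_ext (ch : AlgCharts 𝔠) (K K' : Type u) [Field K] [Field K']
    [Algebra k K] [Algebra k K'] (ψ : K →ₐ[k] K') (T : Triple 𝔠 K) (hT : T.IsPic0)
    (T' : Triple 𝔠 K') (hTT' : IsBC ψ T T') (i : ch.ι) (φ' : ch.R i →ₐ[k] K')
    (hφ' : IsBC φ' (ch.U i) T') : ∃ φ : ch.R i →ₐ[k] K, IsBC φ (ch.U i) T := by
  obtain ⟨𝒱, -, hiff⟩ := ch.isOpen i K T hT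
  have h1 := (hiff K' ψ T' hTT').mpr ⟨φ', hφ'⟩
  refine (hiff K (AlgHom.id k K) T ⟨BaseChange.id T⟩).mp (fun p => ?_)
  have := h1 ⊥
  rwa [Subsingleton.elim (PrimeSpectrum.comap ψ.toRingHom ⊥)
    (PrimeSpectrum.comap (AlgHom.id k K).toRingHom p)] at this

end Descent

open Descent in
/-- The extension property descends from algebraically closed fraction fields. -/
theorem extProp_of_algClosed (ch : AlgCharts 𝔠)
    (hext : ∀ (V K : Type u) [CommRing V] [IsDomain V] [ValuationRing V] [Field K] [IsAlgClosed K]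
      [Algebra k V] [Algebra k K] [Algebra V K] [IsScalarTower k V K] [IsFractionRing V K],
      ExtProp 𝔠 V K)
    (V K : Type u) [CommRing V] [IsDomain V] [ValuationRing V] [Field K]
    [Algebra k V] [Algebra k K] [Algebra V K] [IsScalarTower k V K] [IsFractionRing V K] :
    ExtProp 𝔠 V K := by
  intro TK hTK
  -- the algebraic closure and a valuation ring dominating `V`
  let K' := AlgebraicClosure K
  obtain ⟨V', hV', hloc⟩ := IsLocalRing.exists_factor_valuationRing (R := V) (K := K')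
    (algebraMap V K')
  let g : V →+* V' := (algebraMap V K').codRestrict V'.toSubring hV'
  let _ : Algebra k V' := (g.comp (algebraMap k V)).toAlgebra
  have : IsScalarTower k V' K' := IsScalarTower.of_algebraMap_eq (fun c => by
    change algebraMap k K' c = ((g (algebraMap k V c) : V') : K')
    change algebraMap k K' c = algebraMap V K' (algebraMap k V c)
    rw [← IsScalarTower.algebraMap_apply])
  -- `V' ∩ K = V`
  have hcap : ∀ a : K, algebraMap K K' a ∈ V' → a ∈ Set.range (algebraMap V K) := by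
    intro a ha
    rcases ValuationRing.isInteger_or_isInteger V a with ⟨v, hv⟩ | ⟨v, hv⟩
    · exact ⟨v, hv⟩
    · by_cases ha0 : a = 0
      · exact ⟨0, by rw [ha0, map_zero]⟩
      have hu : IsUnit (g v) := by
        refine IsUnit.of_mul_eq_one (⟨algebraMap K K' a, ha⟩ : V') ?_
        apply Subtype.ext
        change algebraMap V K' v * algebraMap K K' a = 1
        rw [IsScalarTower.algebraMap_apply V K K', hv, ← map_mul, inv_mul_cancel₀ ha0, map_one]
      have hv' : IsUnit v := hloc.map_nonunit v hu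
      obtain ⟨w, hw⟩ := hv'.exists_right_inv
      refine ⟨w, ?_⟩
      have : algebraMap V K v * algebraMap V K w = 1 := by rw [← map_mul, hw, map_one]
      rw [hv] at this
      field_simp at this
      exact this
  -- extension over `V'`
  let ψ : K →ₐ[k] K' := IsScalarTower.toAlgHom k K K'
  obtain ⟨T', hT', ⟨D'⟩⟩ := hext V' K' (TK.bc ψ) ((TK.bcData ψ).isPic0 hTK)
  obtain ⟨i, φ', ⟨Dφ'⟩⟩ := exists_chart_of_isLocalRing ch V' T' hT'
  have hφK' : IsBC ((IsScalarTower.toAlgHom k V' K').comp φ') (ch.U i) (TK.bc ψ) :=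
    ⟨Dφ'.comp D'⟩
  obtain ⟨φK, ⟨DφK⟩⟩ := exists_chart_of_field_ext ch K K' ψ TK hTK (TK.bc ψ) ⟨TK.bcData ψ⟩ i _ hφK'
  have heq : ψ.comp φK = (IsScalarTower.toAlgHom k V' K').comp φ' :=
    ch.mono i K' _ _ (TK.bc ψ) ⟨DφK.comp (TK.bcData ψ)⟩ hφK'
  obtain ⟨φV, hφV⟩ := exists_factor (V := V) (K := K) (IsFractionRing.injective V K) φK (fun r => by
    apply hcap
    have := congrArg (fun f : ch.R i →ₐ[k] K' => f r) heq
    change algebraMap K K' (φK r) = ((φ' r : V') : K') at this
    rw [this]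
    exact (φ' r).2)
  refine ⟨(ch.U i).bc φV, ((ch.U i).bcData φV).isPic0 (ch.pic0 i), ?_⟩
  let ι : V →ₐ[k] K := IsScalarTower.toAlgHom k V K
  have D1 : BaseChange (ι.comp φV) (ch.U i) (((ch.U i).bc φV).bc ι) :=
    ((ch.U i).bcData φV).comp (((ch.U i).bc φV).bcData ι)
  rw [hφV] at D1
  exact ⟨(((ch.U i).bc φV).bcData ι).ofIso (D1.unique DφK)⟩

end Fermat.Agent.S25.ValExists
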