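/-
S25 / node P6-e: the valuative extension property over an algebraically closed fraction field,
from the structure theorem `exists_points` and the point bundles.   Owner: helper57.
-/
import Fermat.Agent.S25.Charts.ValExists.Descent
import Fermat.Agent.S25.Triple.TensorBC

set_option autoImplicit false

universe u

open scoped TensorProduct

namespace Fermat.Agent.S25.ValExists

open Triple

variable {k : Type u} [Field k] {𝔠 : CurveCharts k}

section General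

variable {A A' : Type u} [CommRing A] [Algebra k A] [CommRing A'] [Algebra k A']

/-- constant families are compatible with base change -/
theorem isBC_const (E : Triple 𝔠 k) (φ : A →ₐ[k] A') : IsBC φ (E.const A) (E.const A') := by
  have D1 : BaseChange (φ.comp (Algebra.ofId k A)) E ((E.const A).bc φ) :=
    (E.bcData (Algebra.ofId k A)).comp ((E.const A).bcData φ)
  have h : φ.comp (Algebra.ofId k A) = Algebra.ofId k A' := Subsingleton.elim _ _
  rw [h] at D1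
  exact ⟨((E.const A).bcData φ).ofIso (D1.unique (E.bcData (Algebra.ofId k A')))⟩

theorem const_isInvertible (E : Triple 𝔠 k) (hE : E.IsInvertible) : (E.const A).IsInvertible :=
  (E.bcData (Algebra.ofId k A)).isInvertible hE

theorem tensorList_ofFn_isInvertible : ∀ (m : ℕ) (L : Fin m → Triple 𝔠 A),
    (∀ i, (L i).IsInvertible) → (tensorList (List.ofFn L)).IsInvertible
  | 0, _, _ => by
    rw [List.ofFn_zero]
    exact unit_isInvertible
  | m + 1, L, h => by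
    rw [List.ofFn_succ]
    exact (h 0).tensor (tensorList_ofFn_isInvertible m _ fun i => h i.succ)

theorem tensorList_ofFn_isBC (φ : A →ₐ[k] A') : ∀ (m : ℕ) (L : Fin m → Triple 𝔠 A)
    (L' : Fin m → Triple 𝔠 A'), (∀ i, IsBC φ (L i) (L' i)) →
    IsBC φ (tensorList (List.ofFn L)) (tensorList (List.ofFn L'))
  | 0, _, _, _ => by
    rw [List.ofFn_zero, List.ofFn_zero]
    exact ⟨BaseChange.unit φ⟩
  | m + 1, L, L', h => by
    rw [List.ofFn_succ, List.ofFn_succ]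
    exact ⟨(h 0).some.tensor (tensorList_ofFn_isBC φ m _ _ fun i => h i.succ).some⟩

end General

/-- The extension property over `(V, K)`, assuming the structure theorem for the objects of
`Pic⁰(K)`, the basic properties of the point bundles, and the three local facts over `V`. -/
theorem extProp_of_points (V K : Type u) [CommRing V] [Field K]
    [Algebra k V] [Algebra k K] [Algebra V K] [IsScalarTower k V K]
    -- structure of `Pic⁰(K)`
    (m : ℕ) (E : Triple 𝔠 k) (hE : E.IsInvertible)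
    (hpts : ∀ T : Triple 𝔠 K, T.IsPic0 → ∃ σ : Fin m → (𝔠.B₁ →ₐ[k] K),
      Nonempty (Iso T ((tensorList (List.ofFn fun i => Ipt (σ i))).tensor (E.const K))))
    -- point bundles
    (hinv₁ : ∀ σ : 𝔠.B₁ →ₐ[k] V, (Ipt σ).IsInvertible)
    (hbc₁ : ∀ σ : 𝔠.B₁ →ₐ[k] V, IsBC (IsScalarTower.toAlgHom k V K) (Ipt σ)
      (Ipt ((IsScalarTower.toAlgHom k V K).comp σ)))
    (hinv₂ : ∀ τ : 𝔠.B₂ →ₐ[k] V, (Ipt₂ τ).IsInvertible)
    (hbc₂ : ∀ τ : 𝔠.B₂ →ₐ[k] V, IsBC (IsScalarTower.toAlgHom k V K) (Ipt₂ τ)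
      (Ipt₂ ((IsScalarTower.toAlgHom k V K).comp τ)))
    (hiso : ∀ σ : 𝔠.B₁₂ →ₐ[k] K,
      Nonempty (Iso (Ipt (σ.comp (IsScalarTower.toAlgHom k 𝔠.B₁ 𝔠.B₁₂)))
        (Ipt₂ (σ.comp (IsScalarTower.toAlgHom k 𝔠.B₂ 𝔠.B₁₂)))))
    -- local facts
    (hrig : ∀ T : Triple 𝔠 V, T.IsInvertible → T.IsRigid)
    (hext : ∀ σ : 𝔠.B₁ →ₐ[k] K,
      (∃ σ' : 𝔠.B₁ →ₐ[k] V, (IsScalarTower.toAlgHom k V K).comp σ' = σ) ∨
      (∃ (σ₁₂ : 𝔠.B₁₂ →ₐ[k] K) (τ' : 𝔠.B₂ →ₐ[k] V),
        σ₁₂.comp (IsScalarTower.toAlgHom k 𝔠.B₁ 𝔠.B₁₂) = σ ∧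
        (IsScalarTower.toAlgHom k V K).comp τ' =
          σ₁₂.comp (IsScalarTower.toAlgHom k 𝔠.B₂ 𝔠.B₁₂)))
    (hdeg : ∀ (T : Triple 𝔠 V), T.IsInvertible → ∀ TK : Triple 𝔠 K, TK.Deg0 →
      IsBC (IsScalarTower.toAlgHom k V K) T TK → T.Deg0) :
    ExtProp 𝔠 V K := by
  intro TK hTK
  obtain ⟨σ, ⟨e⟩⟩ := hpts TK hTK
  have hL : ∀ i, ∃ L : Triple 𝔠 V, L.IsInvertible ∧
      IsBC (IsScalarTower.toAlgHom k V K) L (Ipt (σ i)) := by
    intro i
    rcases hext (σ i) with ⟨σ', hσ'⟩ | ⟨σ₁₂, τ', h1, h2⟩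
    · exact ⟨Ipt σ', hinv₁ σ', hσ' ▸ hbc₁ σ'⟩
    · refine ⟨Ipt₂ τ', hinv₂ τ', ?_⟩
      obtain ⟨D⟩ := hbc₂ τ'
      rw [h2] at D
      obtain ⟨e'⟩ := hiso σ₁₂
      rw [h1] at e'
      exact ⟨D.ofIso e'.symm⟩
  choose L hLinv hLbc using hL
  let T : Triple 𝔠 V := (tensorList (List.ofFn L)).tensor (E.const V)
  have hTinv : T.IsInvertible :=
    (tensorList_ofFn_isInvertible m L hLinv).tensor (const_isInvertible E hE)
  have hTbc : IsBC (IsScalarTower.toAlgHom k V K) T TK :=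
    ⟨((tensorList_ofFn_isBC _ m L _ hLbc).some.tensor (isBC_const E _).some).ofIso e.symm⟩
  exact ⟨T, ⟨hTinv, hrig T hTinv, hdeg T hTinv TK hTK.deg0 hTbc⟩, hTbc⟩

end Fermat.Agent.S25.ValExists
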