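/-
S25 / node P6-b (task 864), owner helper150.
Extension of points: the valuative criterion for the curve, in algebra.
-/
import Fermat.Agent.S25.Core

set_option autoImplicit false

universe u

open scoped TensorProduct

namespace Fermat.Agent.S25.ValExists

variable {k : Type u} [Field k] {𝔠 : CurveCharts k}

section Points

variable (V K : Type u) [CommRing V] [IsDomain V] [ValuationRing V] [Field K]
  [Algebra k V] [Algebra k K] [Algebra V K] [IsScalarTower k V K] [IsFractionRing V K]

omit [IsDomain V] [ValuationRing V] in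
/-- an algebra hom to `K` with values in `V` factors through `V`. -/
theorem exists_factor {B : Type u} [CommRing B] [Algebra k B] (f : B →ₐ[k] K)
    (h : ∀ b, f b ∈ Set.range (algebraMap V K)) :
    ∃ f' : B →ₐ[k] V, (IsScalarTower.toAlgHom k V K).comp f' = f := by
  have inj : Function.Injective (algebraMap V K) := IsFractionRing.injective V K
  choose g hg using h
  refine ⟨{ toFun := g
            map_one' := inj (by rw [hg, map_one, map_one])
            map_mul' := fun a b => inj (by rw [hg, map_mul, map_mul, hg, hg])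
            map_zero' := inj (by rw [hg, map_zero, map_zero])
            map_add' := fun a b => inj (by rw [hg, map_add, map_add, hg, hg])
            commutes' := fun c => inj (by
              rw [hg, AlgHom.commutes, ← IsScalarTower.algebraMap_apply]) }, ?_⟩
  ext b
  exact hg b

/-- if `B` is finite over `k[x]` and `f x ∈ V` then `f` has values in `V`. -/
theorem range_of_finite {B : Type u} [CommRing B] [Algebra k B] (x : B)
    (hfin : (Polynomial.aeval (R := k) x).toRingHom.Finite) (f : B →ₐ[k] K) (v : V)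
    (hv : f x = algebraMap V K v) (b : B) : f b ∈ Set.range (algebraMap V K) := by
  obtain ⟨p, hp, hpb⟩ := hfin.to_isIntegral b
  have hcomp : (algebraMap V K).comp (Polynomial.aeval (R := k) v).toRingHom
      = f.toRingHom.comp (Polynomial.aeval (R := k) x).toRingHom := by
    apply Polynomial.ringHom_ext
    · intro c
      simp only [RingHom.comp_apply, AlgHom.toRingHom_eq_coe, RingHom.coe_coe,
        Polynomial.aeval_C, AlgHom.commutes]
      rw [← IsScalarTower.algebraMap_apply]
    · simp only [RingHom.comp_apply, AlgHom.toRingHom_eq_coe, RingHom.coe_coe,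
        Polynomial.aeval_X, hv]
  have hint : IsIntegral V (f b) := by
    refine ⟨p.map (Polynomial.aeval (R := k) v).toRingHom, hp.map _, ?_⟩
    rw [Polynomial.eval₂_map, hcomp]
    have h1 := Polynomial.hom_eval₂ p (Polynomial.aeval (R := k) x).toRingHom f.toRingHom b
    rw [hpb, map_zero] at h1
    exact h1.symm
  exact IsIntegrallyClosed.isIntegral_iff.mp hint

/-- a `K`-point of `W₁` extends to a `V`-point of `W₁`, or to a `V`-point of `W₂`. -/
theorem exists_point_extension (σ : 𝔠.B₁ →ₐ[k] K) :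
    (∃ σ' : 𝔠.B₁ →ₐ[k] V, (IsScalarTower.toAlgHom k V K).comp σ' = σ) ∨
    (∃ (σ₁₂ : 𝔠.B₁₂ →ₐ[k] K) (τ' : 𝔠.B₂ →ₐ[k] V),
      σ₁₂.comp (IsScalarTower.toAlgHom k 𝔠.B₁ 𝔠.B₁₂) = σ ∧
      (IsScalarTower.toAlgHom k V K).comp τ' =
        σ₁₂.comp (IsScalarTower.toAlgHom k 𝔠.B₂ 𝔠.B₁₂)) := by
  by_cases ha : σ 𝔠.x = 0
  · left
    exact exists_factor V K σ (range_of_finite V K 𝔠.x 𝔠.fin₁ σ 0 (by rw [ha, map_zero]))
  rcases ValuationRing.isInteger_or_isInteger V (σ 𝔠.x) with ⟨v, hv⟩ | ⟨v, hv⟩
  · left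
    exact exists_factor V K σ (range_of_finite V K 𝔠.x 𝔠.fin₁ σ v hv.symm)
  · right
    have := 𝔠.away₁
    have hu : IsUnit (σ.toRingHom 𝔠.x) := IsUnit.mk0 _ ha
    let σ₁₂ : 𝔠.B₁₂ →ₐ[k] K :=
      { IsLocalization.Away.lift (S := 𝔠.B₁₂) 𝔠.x hu with
        commutes' := fun c => by
          show IsLocalization.Away.lift (S := 𝔠.B₁₂) 𝔠.x hu (algebraMap k 𝔠.B₁₂ c) = _
          rw [IsScalarTower.algebraMap_apply k 𝔠.B₁ 𝔠.B₁₂, IsLocalization.Away.lift_eq]
          exact σ.commutes c }
    have hσ : ∀ b : 𝔠.B₁, σ₁₂ (algebraMap 𝔠.B₁ 𝔠.B₁₂ b) = σ b := fun b =>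
      IsLocalization.Away.lift_eq (S := 𝔠.B₁₂) 𝔠.x hu b
    have hy : (σ₁₂.comp (IsScalarTower.toAlgHom k 𝔠.B₂ 𝔠.B₁₂)) 𝔠.y = algebraMap V K v := by
      have h1 := congrArg σ₁₂ 𝔠.xy
      rw [map_mul, map_one, hσ] at h1
      rw [hv]
      exact eq_inv_of_mul_eq_one_right h1
    obtain ⟨τ', hτ'⟩ := exists_factor V K _ (range_of_finite V K 𝔠.y 𝔠.fin₂ _ v hy)
    refine ⟨σ₁₂, τ', ?_, hτ'⟩
    ext b
    exact hσ b

end Points

end Fermat.Agent.S25.ValExists
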