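/-
S25 / node P6-a (val_exists): over a local ring every invertible triple is rigid.
Owner: helper206.
-/
import Fermat.Agent.S25.Core

set_option autoImplicit false

universe u

open scoped TensorProduct

namespace Fermat.Agent.S25.ValExists

open Triple

section Abstract

variable {R A : Type u} [CommRing R] [CommRing A]

/-- kernel of `N → A ⊗[R] N` for a surjective `R → A`. -/
theorem ker_mk_one_of_surjective [Algebra R A] (h : Function.Surjective (algebraMap R A))
    (N : Type u) [AddCommGroup N] [Module R N] :
    LinearMap.ker (TensorProduct.mk R A N 1) =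
      RingHom.ker (algebraMap R A) • (⊤ : Submodule R N) := by
  let e : (R ⧸ RingHom.ker (algebraMap R A)) ≃ₗ[R] A :=
    (Ideal.quotientKerAlgEquivOfSurjective (f := Algebra.ofId R A) h).toLinearEquiv
  have he1 : e 1 = 1 := map_one (Ideal.quotientKerAlgEquivOfSurjective (f := Algebra.ofId R A) h)
  have hcomp : TensorProduct.mk R A N 1 =
      (e.rTensor N).toLinearMap ∘ₗ
        TensorProduct.mk R (R ⧸ RingHom.ker (algebraMap R A)) N 1 := by
    ext n
    simp [he1]
  rw [hcomp, LinearEquiv.ker_comp]
  exact LinearMap.ker_tensorProductMk (R := R) (Q := N) (I := RingHom.ker (algebraMap R A))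

/-- An invertible module over `R` has, modulo the kernel of a surjection of `R` onto a local ring,
a generator. -/
theorem exists_generator_mod_ker [IsLocalRing A] (f : R →+* A) (hf : Function.Surjective f)
    (N : Type u) [AddCommGroup N] [Module R N] [Module.Invertible R N] :
    ∃ n : N, ∀ m : N, ∃ r : R, m - r • n ∈ RingHom.ker f • (⊤ : Submodule R N) := by
  letI : Algebra R A := f.toAlgebra
  have hf' : Function.Surjective (algebraMap R A) := hf
  have hfree : Module.Free A (A ⊗[R] N) := inferInstance
  obtain ⟨e⟩ := Module.Invertible.free_iff_linearEquiv.mp hfree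
  obtain ⟨n, hn⟩ := TensorProduct.mk_surjective R N A hf' (e.symm 1)
  refine ⟨n, fun m => ?_⟩
  obtain ⟨r, hr⟩ := hf' (e ((1 : A) ⊗ₜ[R] m))
  refine ⟨r, ?_⟩
  have hker := ker_mk_one_of_surjective hf' N
  have hgoal : m - r • n ∈ LinearMap.ker (TensorProduct.mk R A N 1) := by
    rw [LinearMap.mem_ker, map_sub, map_smul, hn, sub_eq_zero]
    apply e.injective
    have h1 : r • e.symm 1 = (algebraMap R A r) • e.symm 1 := by
      rw [algebraMap_smul]
    rw [h1, map_smul, e.apply_symm_apply, hr, smul_eq_mul, mul_one]
    rfl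
  rw [hker] at hgoal
  exact hgoal

end Abstract

variable {k : Type u} [Field k] {𝔠 : CurveCharts k}

theorem ev₀_surjective (A : Type u) [CommRing A] [Algebra k A] :
    Function.Surjective (𝔠.ev₀ A) := by
  intro a
  refine ⟨algebraMap A (𝔠.R₂ A) a, ?_⟩
  exact (𝔠.ev₀ A).commutes a

theorem isRigid_of_isLocalRing {A : Type u} [CommRing A] [Algebra k A] [IsLocalRing A]
    (T : Triple 𝔠 A) (hT : T.IsInvertible) : T.IsRigid := by
  have := hT.inv₂
  exact exists_generator_mod_ker (𝔠.ev₀ A).toRingHom (ev₀_surjective A) T.N₂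

end Fermat.Agent.S25.ValExists
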